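/-
P-MW / MW-A1 row LFINT-CUSP (helper35): Gronwall estimates for `u' = c u` along real paths.
Mathlib only.
-/
import Mathlib

set_option autoImplicit false

noncomputable section

namespace Fermat.Agent.H35.MWDiv

open Set

/-- Gronwall, difference form: if `u' = c u` and `‖c‖ ≤ K` on `[a, b]`, then
`‖u b - u a‖ ≤ ‖u a‖ (e^{K (b - a)} - 1)`. -/
theorem gronwall_diff {u c : ℝ → ℂ} {a b K : ℝ} (hab : a ≤ b) (hK : 0 < K)
    (hu : ∀ t ∈ Icc a b, HasDerivAt u (c t * u t) t) (hc : ∀ t ∈ Icc a b, ‖c t‖ ≤ K) :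
    ‖u b - u a‖ ≤ ‖u a‖ * (Real.exp (K * (b - a)) - 1) := by
  have hcont : ContinuousOn (fun t => u t - u a) (Icc a b) := fun t ht =>
    (((hu t ht).continuousAt).sub continuousAt_const).continuousWithinAt
  have hder : ∀ t ∈ Ico a b,
      HasDerivWithinAt (fun t => u t - u a) (c t * u t) (Ici t) t := fun t ht =>
    ((hu t (Ico_subset_Icc_self ht)).sub_const (u a)).hasDerivWithinAt
  have hbound : ∀ t ∈ Ico a b, ‖c t * u t‖ ≤ K * ‖u t - u a‖ + K * ‖u a‖ := by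
    intro t ht
    have h1 : ‖u t‖ ≤ ‖u t - u a‖ + ‖u a‖ := by
      have := norm_add_le (u t - u a) (u a)
      simpa using this
    calc ‖c t * u t‖ = ‖c t‖ * ‖u t‖ := norm_mul _ _
      _ ≤ K * ‖u t‖ := mul_le_mul_of_nonneg_right (hc t (Ico_subset_Icc_self ht)) (norm_nonneg _)
      _ ≤ K * (‖u t - u a‖ + ‖u a‖) := mul_le_mul_of_nonneg_left h1 hK.le
      _ = K * ‖u t - u a‖ + K * ‖u a‖ := by ring
  have h0 : ‖u a - u a‖ ≤ 0 := by simp
  have := norm_le_gronwallBound_of_norm_deriv_right_le hcont hder h0 hbound b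
    (right_mem_Icc.mpr hab)
  rw [gronwallBound_of_K_ne_0 hK.ne'] at this
  simp only [zero_mul, zero_add] at this
  rwa [mul_div_cancel_left₀ _ hK.ne'] at this

/-- Gronwall, forward bound. -/
theorem gronwall_fwd {u c : ℝ → ℂ} {a b K : ℝ} (hab : a ≤ b) (hK : 0 < K)
    (hu : ∀ t ∈ Icc a b, HasDerivAt u (c t * u t) t) (hc : ∀ t ∈ Icc a b, ‖c t‖ ≤ K) :
    ‖u b‖ ≤ ‖u a‖ * Real.exp (K * (b - a)) := by
  have h1 := gronwall_diff hab hK hu hc
  have h2 : ‖u b‖ ≤ ‖u b - u a‖ + ‖u a‖ := by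
    have := norm_add_le (u b - u a) (u a)
    simpa using this
  linarith

/-- Gronwall, backward bound. -/
theorem gronwall_bwd {u c : ℝ → ℂ} {a b K : ℝ} (hab : a ≤ b) (hK : 0 < K)
    (hu : ∀ t ∈ Icc a b, HasDerivAt u (c t * u t) t) (hc : ∀ t ∈ Icc a b, ‖c t‖ ≤ K) :
    ‖u a‖ ≤ ‖u b‖ * Real.exp (K * (b - a)) := by
  have hmem : ∀ t ∈ Icc (-b) (-a), -t ∈ Icc a b := by
    intro t ht
    rw [mem_Icc] at ht ⊢
    constructor <;> linarith [ht.1, ht.2]
  have hu' : ∀ t ∈ Icc (-b) (-a),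
      HasDerivAt (fun t => u (-t)) ((-c (-t)) * (fun t => u (-t)) t) t := by
    intro t ht
    have h1 := (hu (-t) (hmem t ht)).scomp t (hasDerivAt_neg t)
    have h2 : (-1 : ℝ) • (c (-t) * u (-t)) = (-c (-t)) * u (-t) := by
      simp
    rw [h2] at h1
    exact h1
  have hc' : ∀ t ∈ Icc (-b) (-a), ‖-c (-t)‖ ≤ K := by
    intro t ht
    rw [norm_neg]
    exact hc _ (hmem t ht)
  have := gronwall_fwd (u := fun t => u (-t)) (c := fun t => -c (-t)) (neg_le_neg hab) hK hu' hc'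
  simp only [neg_neg] at this
  have h3 : -a - -b = b - a := by ring
  rwa [h3] at this

/-- Propagation of zeros. -/
theorem gronwall_zero {u c : ℝ → ℂ} {a b K : ℝ} (hab : a ≤ b) (hK : 0 < K)
    (hu : ∀ t ∈ Icc a b, HasDerivAt u (c t * u t) t) (hc : ∀ t ∈ Icc a b, ‖c t‖ ≤ K)
    (h0 : u a = 0) : u b = 0 := by
  have := gronwall_fwd hab hK hu hc
  rw [h0, norm_zero, zero_mul] at this
  exact norm_le_zero_iff.mp this

end Fermat.Agent.H35.MWDiv

end
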