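/-
P-MW / MW-A1 row LFINT-CUSP (helper35): estimates for holomorphic solutions of `f' = r f`
along segments and along vertical rays (with exponentially decaying coefficient).
Mathlib only.
-/
import Fermat.Agent.H35.MWDiv.Gronwall

set_option autoImplicit false

noncomputable section

namespace Fermat.Agent.H35.MWDiv

open Set

/-- the straight path from `z₀` to `z₁` -/
def segPath (z₀ z₁ : ℂ) (t : ℝ) : ℂ := z₀ + (t : ℂ) * (z₁ - z₀)

theorem segPath_zero (z₀ z₁ : ℂ) : segPath z₀ z₁ 0 = z₀ := by simp [segPath]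

theorem segPath_one (z₀ z₁ : ℂ) : segPath z₀ z₁ 1 = z₁ := by simp [segPath]

theorem hasDerivAt_segPath (z₀ z₁ : ℂ) (t : ℝ) : HasDerivAt (segPath z₀ z₁) (z₁ - z₀) t := by
  unfold segPath
  have h1 : HasDerivAt (fun t : ℝ => (t : ℂ)) 1 t := (hasDerivAt_id t).ofReal_comp
  have h2 := (h1.mul_const (z₁ - z₀)).const_add z₀
  simpa using h2

theorem segPath_mem {S : Set ℂ} (hS : Convex ℝ S) {z₀ z₁ : ℂ} (h₀ : z₀ ∈ S) (h₁ : z₁ ∈ S)
    {t : ℝ} (ht : t ∈ Icc (0 : ℝ) 1) : segPath z₀ z₁ t ∈ S := by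
  have h := hS h₀ h₁ (sub_nonneg.mpr ht.2) ht.1 (by ring : (1 - t) + t = 1)
  have h2 : (1 - t) • z₀ + t • z₁ = segPath z₀ z₁ t := by
    unfold segPath
    rw [Complex.real_smul, Complex.real_smul]
    push_cast
    ring
  rwa [h2] at h

/-- Gronwall along a segment inside a convex set, difference form. -/
theorem seg_diff {f r : ℂ → ℂ} {S : Set ℂ} (hS : Convex ℝ S) {K : ℝ} (hK : 0 < K)
    (hf : ∀ z ∈ S, HasDerivAt f (r z * f z) z) (hr : ∀ z ∈ S, ‖r z‖ ≤ K)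
    {z₀ z₁ : ℂ} (h₀ : z₀ ∈ S) (h₁ : z₁ ∈ S) :
    ‖f z₁ - f z₀‖ ≤ ‖f z₀‖ * (Real.exp (K * ‖z₁ - z₀‖) - 1) := by
  by_cases hz : z₁ = z₀
  · subst hz
    simp
  have hpos : 0 < ‖z₁ - z₀‖ := norm_pos_iff.mpr (sub_ne_zero.mpr hz)
  have hu : ∀ t ∈ Icc (0 : ℝ) 1, HasDerivAt (fun t => f (segPath z₀ z₁ t))
      (((z₁ - z₀) * r (segPath z₀ z₁ t)) * (fun t => f (segPath z₀ z₁ t)) t) t := by
    intro t ht
    have h1 := (hf _ (segPath_mem hS h₀ h₁ ht)).scomp t (hasDerivAt_segPath z₀ z₁ t)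
    have h2 : (z₁ - z₀) • (r (segPath z₀ z₁ t) * f (segPath z₀ z₁ t))
        = ((z₁ - z₀) * r (segPath z₀ z₁ t)) * f (segPath z₀ z₁ t) := by
      rw [smul_eq_mul]; ring
    rw [h2] at h1
    exact h1
  have hc : ∀ t ∈ Icc (0 : ℝ) 1, ‖(z₁ - z₀) * r (segPath z₀ z₁ t)‖ ≤ ‖z₁ - z₀‖ * K := by
    intro t ht
    rw [norm_mul]
    exact mul_le_mul_of_nonneg_left (hr _ (segPath_mem hS h₀ h₁ ht)) (norm_nonneg _)
  have := gronwall_diff (u := fun t => f (segPath z₀ z₁ t))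
    (c := fun t => (z₁ - z₀) * r (segPath z₀ z₁ t)) zero_le_one (mul_pos hpos hK) hu hc
  simp only [segPath_zero, segPath_one, sub_zero, mul_one] at this
  rwa [mul_comm ‖z₁ - z₀‖ K] at this

/-- Gronwall along a segment inside a convex set. -/
theorem seg_fwd {f r : ℂ → ℂ} {S : Set ℂ} (hS : Convex ℝ S) {K : ℝ} (hK : 0 < K)
    (hf : ∀ z ∈ S, HasDerivAt f (r z * f z) z) (hr : ∀ z ∈ S, ‖r z‖ ≤ K)
    {z₀ z₁ : ℂ} (h₀ : z₀ ∈ S) (h₁ : z₁ ∈ S) :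
    ‖f z₁‖ ≤ ‖f z₀‖ * Real.exp (K * ‖z₁ - z₀‖) := by
  have h1 := seg_diff hS hK hf hr h₀ h₁
  have h2 : ‖f z₁‖ ≤ ‖f z₁ - f z₀‖ + ‖f z₀‖ := by
    have := norm_add_le (f z₁ - f z₀) (f z₀)
    simpa using this
  linarith

/-- Propagation of zeros inside a convex set. -/
theorem seg_zero {f r : ℂ → ℂ} {S : Set ℂ} (hS : Convex ℝ S) {K : ℝ} (hK : 0 < K)
    (hf : ∀ z ∈ S, HasDerivAt f (r z * f z) z) (hr : ∀ z ∈ S, ‖r z‖ ≤ K)
    {z₀ z₁ : ℂ} (h₀ : z₀ ∈ S) (h₁ : z₁ ∈ S) (hz : f z₀ = 0) : f z₁ = 0 := by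
  have := seg_fwd hS hK hf hr h₀ h₁
  rw [hz, norm_zero, zero_mul] at this
  exact norm_le_zero_iff.mp this

/-- the vertical path over `x`, parametrised by `τ = exp (-ε * height)` -/
def vertPath (x ε : ℝ) (τ : ℝ) : ℂ := (x : ℂ) + Complex.I * ((-Real.log τ / ε : ℝ) : ℂ)

theorem vertPath_im (x ε τ : ℝ) : (vertPath x ε τ).im = -Real.log τ / ε := by
  simp [vertPath]

theorem vertPath_exp (x ε : ℝ) (hε : 0 < ε) (s : ℝ) :
    vertPath x ε (Real.exp (-ε * s)) = (x : ℂ) + Complex.I * (s : ℂ) := by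
  unfold vertPath
  rw [Real.log_exp]
  congr 3
  field_simp

theorem hasDerivAt_vertPath (x ε : ℝ) {τ : ℝ} (hτ : τ ≠ 0) :
    HasDerivAt (vertPath x ε) (Complex.I * ((-τ⁻¹ / ε : ℝ) : ℂ)) τ := by
  unfold vertPath
  have h1 : HasDerivAt (fun τ : ℝ => -Real.log τ / ε) (-τ⁻¹ / ε) τ :=
    ((Real.hasDerivAt_log hτ).neg).div_const ε
  have h2 := h1.ofReal_comp
  exact (h2.const_mul Complex.I).const_add (x : ℂ)

/-- Vertical Gronwall with exponentially decaying coefficient: both directions. -/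
theorem vert_both {f r : ℂ → ℂ} {Y₀ ε C₁ : ℝ} (hε : 0 < ε) (hC₁ : 0 < C₁)
    (hf : ∀ z : ℂ, Y₀ < z.im → HasDerivAt f (r z * f z) z)
    (hr : ∀ z : ℂ, Y₀ < z.im → ‖r z‖ ≤ C₁ * Real.exp (-ε * z.im))
    (x : ℝ) {s t : ℝ} (hs : Y₀ < s) (hst : s ≤ t) :
    ‖f ((x : ℂ) + Complex.I * (t : ℂ))‖
        ≤ ‖f ((x : ℂ) + Complex.I * (s : ℂ))‖ * Real.exp (C₁ / ε * Real.exp (-ε * s)) ∧
    ‖f ((x : ℂ) + Complex.I * (s : ℂ))‖
        ≤ ‖f ((x : ℂ) + Complex.I * (t : ℂ))‖ * Real.exp (C₁ / ε * Real.exp (-ε * s)) := by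
  set a := Real.exp (-ε * t) with ha
  set b := Real.exp (-ε * s) with hb
  have hab : a ≤ b := by
    rw [ha, hb]
    apply Real.exp_le_exp.mpr
    nlinarith
  have ha0 : 0 < a := Real.exp_pos _
  have hK : 0 < C₁ / ε := div_pos hC₁ hε
  have him : ∀ τ ∈ Icc a b, Y₀ < (vertPath x ε τ).im := by
    intro τ hτ
    rw [vertPath_im]
    have hτ0 : 0 < τ := lt_of_lt_of_le ha0 hτ.1
    have h1 : Real.log τ ≤ Real.log b := Real.log_le_log hτ0 hτ.2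
    rw [hb, Real.log_exp] at h1
    have h2 : s ≤ -Real.log τ / ε := by
      rw [le_div_iff₀ hε]
      nlinarith
    linarith
  have hu : ∀ τ ∈ Icc a b, HasDerivAt (fun τ => f (vertPath x ε τ))
      (((Complex.I * ((-τ⁻¹ / ε : ℝ) : ℂ)) * r (vertPath x ε τ)) *
        (fun τ => f (vertPath x ε τ)) τ) τ := by
    intro τ hτ
    have hτ0 : 0 < τ := lt_of_lt_of_le ha0 hτ.1
    have h1 := (hf _ (him τ hτ)).scomp τ (hasDerivAt_vertPath x ε hτ0.ne')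
    have h2 : (Complex.I * ((-τ⁻¹ / ε : ℝ) : ℂ)) • (r (vertPath x ε τ) * f (vertPath x ε τ))
        = ((Complex.I * ((-τ⁻¹ / ε : ℝ) : ℂ)) * r (vertPath x ε τ)) * f (vertPath x ε τ) := by
      rw [smul_eq_mul]; ring
    rw [h2] at h1
    exact h1
  have hc : ∀ τ ∈ Icc a b,
      ‖(Complex.I * ((-τ⁻¹ / ε : ℝ) : ℂ)) * r (vertPath x ε τ)‖ ≤ C₁ / ε := by
    intro τ hτ
    have hτ0 : 0 < τ := lt_of_lt_of_le ha0 hτ.1
    have h1 := hr _ (him τ hτ)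
    rw [vertPath_im] at h1
    have h2 : Real.exp (-ε * (-Real.log τ / ε)) = τ := by
      have : -ε * (-Real.log τ / ε) = Real.log τ := by field_simp
      rw [this, Real.exp_log hτ0]
    rw [h2] at h1
    rw [norm_mul, norm_mul, Complex.norm_I, one_mul, Complex.norm_real, Real.norm_eq_abs]
    have h3 : |(-τ⁻¹ / ε)| = τ⁻¹ / ε := by
      rw [abs_div, abs_neg, abs_of_pos (inv_pos.mpr hτ0), abs_of_pos hε]
    rw [h3]
    calc τ⁻¹ / ε * ‖r (vertPath x ε τ)‖ ≤ τ⁻¹ / ε * (C₁ * τ) :=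
          mul_le_mul_of_nonneg_left h1 (div_nonneg (inv_pos.mpr hτ0).le hε.le)
      _ = C₁ / ε := by field_simp
  have hfw := gronwall_fwd (u := fun τ => f (vertPath x ε τ))
    (c := fun τ => (Complex.I * ((-τ⁻¹ / ε : ℝ) : ℂ)) * r (vertPath x ε τ)) hab hK hu hc
  have hbw := gronwall_bwd (u := fun τ => f (vertPath x ε τ))
    (c := fun τ => (Complex.I * ((-τ⁻¹ / ε : ℝ) : ℂ)) * r (vertPath x ε τ)) hab hK hu hc
  simp only [ha, hb, vertPath_exp x ε hε] at hfw hbw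
  have hle : Real.exp (C₁ / ε * (Real.exp (-ε * s) - Real.exp (-ε * t)))
      ≤ Real.exp (C₁ / ε * Real.exp (-ε * s)) := by
    apply Real.exp_le_exp.mpr
    apply mul_le_mul_of_nonneg_left _ hK.le
    have := Real.exp_pos (-ε * t)
    linarith
  constructor
  · exact hbw.trans (mul_le_mul_of_nonneg_left hle (norm_nonneg _))
  · exact hfw.trans (mul_le_mul_of_nonneg_left hle (norm_nonneg _))

end Fermat.Agent.H35.MWDiv

end
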