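/-
P-MW / MW-A1 row LFINT-CUSP (helper35): integration of a logarithmic form at the cusp, core on
`ℂ`-functions.  Mathlib only.

`h' ψ = φ h` on the upper half plane, `φ / ψ` is `w`-periodic and tends to `2πi d / w`
exponentially fast.  Then `h` has no zeros high up, is `w`-periodic, and
`U = h exp (-2πi d z / w)` is bounded and bounded away from zero high up.
-/
import Fermat.Agent.H35.MWDiv.PathEst

set_option autoImplicit false

noncomputable section

namespace Fermat.Agent.H35.MWDiv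

open Set Filter Topology

/-- the constant `2πi d / w` -/
def cZero (w : ℕ) (d : ℤ) : ℂ := 2 * (Real.pi : ℂ) * Complex.I * (d : ℂ) / (w : ℂ)

/-- the hypotheses of the cusp integration lemma, on `ℂ`-functions -/
structure LogData (h φ ψ : ℂ → ℂ) (w : ℕ) (d : ℤ) (Y₀ ε C₁ : ℝ) : Prop where
  hw : 0 < w
  hY : 1 ≤ Y₀
  hε : 0 < ε
  hC : 0 < C₁
  hdiff : ∀ z : ℂ, 0 < z.im → DifferentiableAt ℂ h z
  hode : ∀ z : ℂ, 0 < z.im → deriv h z * ψ z = φ z * h z
  hper : ∀ z : ℂ, 0 < z.im → φ (z + w) * ψ z = φ z * ψ (z + w)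
  hψ : ∀ z : ℂ, Y₀ ≤ z.im → ψ z ≠ 0
  hbd : ∀ z : ℂ, Y₀ ≤ z.im → ‖φ z / ψ z - cZero w d‖ ≤ C₁ * Real.exp (-ε * z.im)
  hne : ∃ z : ℂ, 0 < z.im ∧ h z ≠ 0

/-- the closed half plane `Im z ≥ Y` -/
def halfPlane (Y : ℝ) : Set ℂ := {z : ℂ | Y ≤ z.im}

theorem convex_halfPlane (Y : ℝ) : Convex ℝ (halfPlane Y) := by
  have : halfPlane Y = Complex.imCLM ⁻¹' (Ici Y) := by
    ext z; simp [halfPlane]
  rw [this]
  exact (convex_Ici Y).linear_preimage Complex.imCLM.toLinearMap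

theorem convex_upper : Convex ℝ {z : ℂ | 0 < z.im} := by
  have : {z : ℂ | 0 < z.im} = Complex.imCLM ⁻¹' (Ioi 0) := by
    ext z; simp
  rw [this]
  exact (convex_Ioi 0).linear_preimage Complex.imCLM.toLinearMap

theorem isOpen_upper : IsOpen {z : ℂ | 0 < z.im} :=
  isOpen_lt continuous_const Complex.continuous_im

theorem add_nat_im (z : ℂ) (w : ℕ) : (z + (w : ℂ)).im = z.im := by simp

/-- identity theorem on the upper half plane -/
theorem eq_zero_upper {f : ℂ → ℂ} (hf : ∀ z : ℂ, 0 < z.im → DifferentiableAt ℂ f z)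
    {Y : ℝ} (hY : 0 ≤ Y) (h0 : ∀ z : ℂ, Y < z.im → f z = 0) :
    ∀ z : ℂ, 0 < z.im → f z = 0 := by
  have hdiff : DifferentiableOn ℂ f {z : ℂ | 0 < z.im} := fun z hz =>
    (hf z hz).differentiableWithinAt
  have han : AnalyticOnNhd ℂ f {z : ℂ | 0 < z.im} := hdiff.analyticOnNhd isOpen_upper
  have hz₀ : ((Y + 1 : ℝ) : ℂ) * Complex.I ∈ {z : ℂ | 0 < z.im} := by
    simp only [mem_ofPred_eq, Complex.mul_im, Complex.ofReal_re, Complex.I_im, mul_one,
      Complex.ofReal_im, Complex.I_re, mul_zero, add_zero]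
    linarith
  have hev : f =ᶠ[𝓝 (((Y + 1 : ℝ) : ℂ) * Complex.I)] 0 := by
    have hopen : IsOpen {z : ℂ | Y < z.im} := isOpen_lt continuous_const Complex.continuous_im
    have hmem : ((Y + 1 : ℝ) : ℂ) * Complex.I ∈ {z : ℂ | Y < z.im} := by
      simp only [mem_ofPred_eq, Complex.mul_im, Complex.ofReal_re, Complex.I_im, mul_one,
        Complex.ofReal_im, Complex.I_re, mul_zero, add_zero]
      linarith
    filter_upwards [hopen.mem_nhds hmem] with z hz
    exact h0 z hz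
  intro z hz
  exact han.eqOn_zero_of_preconnected_of_eventuallyEq_zero convex_upper.isPreconnected hz₀ hev hz

/-- `U = h exp (-c₀ z)` -/
def uFun (h : ℂ → ℂ) (w : ℕ) (d : ℤ) (z : ℂ) : ℂ := h z * Complex.exp (-(cZero w d * z))

theorem cZero_mul_w {w : ℕ} (hw : 0 < w) (d : ℤ) :
    cZero w d * (w : ℂ) = (d : ℂ) * (2 * (Real.pi : ℂ) * Complex.I) := by
  have hw' : (w : ℂ) ≠ 0 := by exact_mod_cast hw.ne'
  unfold cZero
  field_simp

theorem exp_cZero_add {w : ℕ} (hw : 0 < w) (d : ℤ) (z : ℂ) :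
    Complex.exp (-(cZero w d * (z + w))) = Complex.exp (-(cZero w d * z)) := by
  have h1 : -(cZero w d * (z + w)) = -(cZero w d * z) + ((-d : ℤ) : ℂ) * (2 * (Real.pi : ℂ) * Complex.I) := by
    rw [mul_add, cZero_mul_w hw d]
    push_cast
    ring
  rw [h1, Complex.exp_add, Complex.exp_int_mul_two_pi_mul_I, mul_one]

theorem uFun_shift {w : ℕ} (hw : 0 < w) (h : ℂ → ℂ) (d : ℤ) (z : ℂ) :
    uFun h w d (z + w) = h (z + w) * Complex.exp (-(cZero w d * z)) := by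
  unfold uFun
  rw [exp_cZero_add hw]

theorem norm_exp_cZero (w : ℕ) (d : ℤ) (z : ℂ) :
    ‖Complex.exp (cZero w d * z)‖ = Real.exp (-(2 * Real.pi * d / w) * z.im) := by
  rw [Complex.norm_exp]
  congr 1
  unfold cZero
  have h1 : (2 * (Real.pi : ℂ) * Complex.I * (d : ℂ) / (w : ℂ) * z)
      = ((2 * Real.pi * d / w : ℝ) : ℂ) * (Complex.I * z) := by
    push_cast
    ring
  rw [h1, Complex.re_ofReal_mul]
  simp

variable {h φ ψ : ℂ → ℂ} {w : ℕ} {d : ℤ} {Y₀ ε C₁ : ℝ}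

namespace LogData

variable (L : LogData h φ ψ w d Y₀ ε C₁)
include L

theorem im_pos {z : ℂ} (hz : Y₀ ≤ z.im) : 0 < z.im := by
  have := L.hY
  linarith

theorem hasDerivAt {z : ℂ} (hz : Y₀ ≤ z.im) : HasDerivAt h (φ z / ψ z * h z) z := by
  have h1 := (L.hdiff z (L.im_pos hz)).hasDerivAt
  have h2 := L.hode z (L.im_pos hz)
  have h3 : deriv h z = φ z / ψ z * h z := by
    field_simp [L.hψ z hz]
    exact h2
  rwa [h3] at h1

theorem ratio_periodic {z : ℂ} (hz : Y₀ ≤ z.im) : φ (z + w) / ψ (z + w) = φ z / ψ z := by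
  have h1 := L.hper z (L.im_pos hz)
  have h2 : ψ (z + w) ≠ 0 := L.hψ _ (by rw [add_nat_im]; exact hz)
  have h3 : ψ z ≠ 0 := L.hψ z hz
  field_simp
  rw [h1]; ring

theorem ratio_bound {z : ℂ} (hz : Y₀ ≤ z.im) : ‖φ z / ψ z‖ ≤ ‖cZero w d‖ + C₁ := by
  have h1 := L.hbd z hz
  have h2 : Real.exp (-ε * z.im) ≤ 1 := by
    rw [Real.exp_le_one_iff]
    have := L.im_pos hz
    have := L.hε
    nlinarith
  have h3 : C₁ * Real.exp (-ε * z.im) ≤ C₁ := by
    have := L.hC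
    nlinarith
  have h4 : ‖φ z / ψ z‖ ≤ ‖φ z / ψ z - cZero w d‖ + ‖cZero w d‖ := by
    have := norm_add_le (φ z / ψ z - cZero w d) (cZero w d)
    simpa using this
  linarith

theorem const_pos : 0 < ‖cZero w d‖ + C₁ := by
  have := L.hC
  have := norm_nonneg (cZero w d)
  linarith

/-- `h` has no zeros high up -/
theorem ne_zero {z : ℂ} (hz : Y₀ ≤ z.im) : h z ≠ 0 := by
  intro h0
  obtain ⟨z₁, hz₁, hne⟩ := L.hne
  apply hne
  have hY0 : (0 : ℝ) ≤ Y₀ := by have := L.hY; linarith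
  refine eq_zero_upper L.hdiff hY0 (fun z' hz' => ?_) z₁ hz₁
  exact seg_zero (convex_halfPlane Y₀) L.const_pos (fun z hz => L.hasDerivAt hz)
    (fun z hz => L.ratio_bound hz) hz hz'.le h0

theorem hasDerivAt_shift {z : ℂ} (hz : Y₀ ≤ z.im) :
    HasDerivAt (fun z => h (z + w)) (φ z / ψ z * h (z + w)) z := by
  have hz' : Y₀ ≤ (z + (w : ℂ)).im := by rw [add_nat_im]; exact hz
  have h1 := L.hasDerivAt hz'
  rw [L.ratio_periodic hz] at h1
  have h2 := h1.comp_add_const z (w : ℂ)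
  exact h2

/-- the multiplier of the translation by `w` -/
theorem exists_mu : ∃ μ : ℂ, ∀ z : ℂ, Y₀ ≤ z.im → h (z + w) = μ * h z := by
  set z₀ : ℂ := (Y₀ : ℂ) * Complex.I with hz₀
  have hz₀m : Y₀ ≤ z₀.im := by simp [hz₀]
  refine ⟨h (z₀ + w) / h z₀, fun z hz => ?_⟩
  have hD : ∀ z : ℂ, Y₀ ≤ z.im → HasDerivAt (fun z => h (z + w) * h z₀ - h z * h (z₀ + w))
      (φ z / ψ z * (fun z => h (z + w) * h z₀ - h z * h (z₀ + w)) z) z := by
    intro z hz
    have h1 := ((L.hasDerivAt_shift hz).mul_const (h z₀)).sub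
      ((L.hasDerivAt hz).mul_const (h (z₀ + w)))
    have h2 : φ z / ψ z * h (z + w) * h z₀ - φ z / ψ z * h z * h (z₀ + w)
        = φ z / ψ z * (h (z + w) * h z₀ - h z * h (z₀ + w)) := by ring
    rw [h2] at h1
    exact h1
  have h0 : (fun z => h (z + w) * h z₀ - h z * h (z₀ + w)) z₀ = 0 := by
    simp only
    ring
  have := seg_zero (f := fun z => h (z + w) * h z₀ - h z * h (z₀ + w)) (convex_halfPlane Y₀)
    L.const_pos hD (fun z hz => L.ratio_bound hz) hz₀m hz h0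
  have hne := L.ne_zero hz₀m
  field_simp
  linear_combination this

theorem hasDerivAt_uFun {z : ℂ} (hz : Y₀ ≤ z.im) :
    HasDerivAt (uFun h w d) ((φ z / ψ z - cZero w d) * uFun h w d z) z := by
  unfold uFun
  have h1 : HasDerivAt (fun z : ℂ => Complex.exp (-(cZero w d * z)))
      (Complex.exp (-(cZero w d * z)) * (-(cZero w d))) z := by
    have h2 : HasDerivAt (fun z : ℂ => -(cZero w d * z)) (-(cZero w d)) z := by
      have h5 : HasDerivAt (fun z : ℂ => cZero w d * z) (cZero w d * 1) z :=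
        (hasDerivAt_id z).const_mul (cZero w d)
      rw [mul_one] at h5
      exact h5.fun_neg
    exact h2.cexp
  have h3 := (L.hasDerivAt hz).mul h1
  have h4 : φ z / ψ z * h z * Complex.exp (-(cZero w d * z))
      + h z * (Complex.exp (-(cZero w d * z)) * (-(cZero w d)))
      = (φ z / ψ z - cZero w d) * (h z * Complex.exp (-(cZero w d * z))) := by ring
  rw [h4] at h3
  exact h3

theorem uFun_ne_zero {z : ℂ} (hz : Y₀ ≤ z.im) : uFun h w d z ≠ 0 :=
  mul_ne_zero (L.ne_zero hz) (Complex.exp_ne_zero _)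

theorem resid_bound {s : ℝ} (hs : Y₀ ≤ s) {z : ℂ} (hz : s ≤ z.im) :
    ‖φ z / ψ z - cZero w d‖ ≤ C₁ * Real.exp (-ε * s) := by
  refine (L.hbd z (hs.trans hz)).trans ?_
  apply mul_le_mul_of_nonneg_left _ L.hC.le
  apply Real.exp_le_exp.mpr
  have := L.hε
  nlinarith

theorem mu_bound {μ : ℂ} (hμ : ∀ z : ℂ, Y₀ ≤ z.im → h (z + w) = μ * h z) {s : ℝ}
    (hs : Y₀ ≤ s) : ‖μ - 1‖ ≤ Real.exp (C₁ * Real.exp (-ε * s) * w) - 1 := by
  set z₁ : ℂ := (s : ℂ) * Complex.I with hz₁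
  have hz₁m : s ≤ z₁.im := by simp [hz₁]
  have hz₁w : s ≤ (z₁ + (w : ℂ)).im := by rw [add_nat_im]; exact hz₁m
  have hK : 0 < C₁ * Real.exp (-ε * s) := mul_pos L.hC (Real.exp_pos _)
  have h1 := seg_diff (f := uFun h w d) (r := fun z => φ z / ψ z - cZero w d)
    (convex_halfPlane s) hK
    (fun z hz => L.hasDerivAt_uFun (hs.trans hz)) (fun z hz => L.resid_bound hs hz) hz₁m hz₁w
  have h2 : uFun h w d (z₁ + w) = μ * uFun h w d z₁ := by
    rw [uFun_shift L.hw, hμ z₁ (hs.trans hz₁m)]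
    unfold uFun
    ring
  have h3 : ‖z₁ + (w : ℂ) - z₁‖ = (w : ℝ) := by
    rw [add_sub_cancel_left]
    simp
  rw [h2, h3] at h1
  have h4 : μ * uFun h w d z₁ - uFun h w d z₁ = (μ - 1) * uFun h w d z₁ := by ring
  rw [h4, norm_mul] at h1
  have hpos : 0 < ‖uFun h w d z₁‖ := norm_pos_iff.mpr (L.uFun_ne_zero (hs.trans hz₁m))
  rw [mul_comm ‖uFun h w d z₁‖] at h1
  exact le_of_mul_le_mul_right h1 hpos

theorem mu_eq_one {μ : ℂ} (hμ : ∀ z : ℂ, Y₀ ≤ z.im → h (z + w) = μ * h z) : μ = 1 := by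
  have hlim : Tendsto (fun s : ℝ => Real.exp (C₁ * Real.exp (-ε * s) * w) - 1) atTop (𝓝 0) := by
    have h1 : Tendsto (fun s : ℝ => ε * s) atTop atTop :=
      tendsto_id.const_mul_atTop L.hε
    have h2 : Tendsto (fun s : ℝ => Real.exp (-(ε * s))) atTop (𝓝 0) :=
      Real.tendsto_exp_neg_atTop_nhds_zero.comp h1
    have h3 : Tendsto (fun s : ℝ => Real.exp (C₁ * Real.exp (-(ε * s)) * w) - 1) atTop
        (𝓝 (Real.exp (C₁ * 0 * w) - 1)) :=
      ((Real.continuous_exp.tendsto _).comp ((h2.const_mul C₁).mul_const (w : ℝ))).sub_const 1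
    simp only [mul_zero, zero_mul, Real.exp_zero, sub_self] at h3
    refine h3.congr (fun s => ?_)
    rw [neg_mul]
  have h5 : ‖μ - 1‖ ≤ 0 := by
    refine ge_of_tendsto hlim ?_
    filter_upwards [eventually_ge_atTop Y₀] with s hs
    exact L.mu_bound hμ hs
  have := norm_le_zero_iff.mp h5
  exact sub_eq_zero.mp this

/-- `h` is `w`-periodic on the upper half plane -/
theorem periodic_upper : ∀ z : ℂ, 0 < z.im → h (z + w) = h z := by
  obtain ⟨μ, hμ⟩ := L.exists_mu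
  have hμ1 := L.mu_eq_one hμ
  have hY0 : (0 : ℝ) ≤ Y₀ := by have := L.hY; linarith
  have hf : ∀ z : ℂ, 0 < z.im → DifferentiableAt ℂ (fun z => h (z + w) - h z) z := by
    intro z hz
    have hz' : 0 < (z + (w : ℂ)).im := by rw [add_nat_im]; exact hz
    have h1 : DifferentiableAt ℂ (fun z => h (z + w)) z :=
      ((L.hdiff _ hz').hasDerivAt.comp_add_const z (w : ℂ)).differentiableAt
    exact h1.sub (L.hdiff z hz)
  intro z hz
  have := eq_zero_upper hf hY0 (fun z' hz' => by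
    show h (z' + w) - h z' = 0
    rw [hμ z' hz'.le, hμ1, one_mul, sub_self]) z hz
  exact sub_eq_zero.mp this

theorem uFun_periodic_upper : ∀ z : ℂ, 0 < z.im → uFun h w d (z + w) = uFun h w d z := by
  intro z hz
  rw [uFun_shift L.hw, L.periodic_upper z hz]
  rfl

theorem resid_bound_one {z : ℂ} (hz : Y₀ ≤ z.im) : ‖φ z / ψ z - cZero w d‖ ≤ C₁ := by
  refine (L.hbd z hz).trans ?_
  have h2 : Real.exp (-ε * z.im) ≤ 1 := by
    rw [Real.exp_le_one_iff]
    have := L.im_pos hz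
    have := L.hε
    nlinarith
  have := L.hC
  nlinarith

/-- `U` is bounded and bounded away from zero high up -/
theorem uFun_bounds : ∃ b B : ℝ, 0 < b ∧ ∀ z : ℂ, Y₀ + 1 ≤ z.im →
    b ≤ ‖uFun h w d z‖ ∧ ‖uFun h w d z‖ ≤ B := by
  set s₁ : ℝ := Y₀ + 1 with hs₁
  set P₀ : ℂ := ((0 : ℝ) : ℂ) + Complex.I * (s₁ : ℂ) with hP₀
  set κ : ℝ := C₁ / ε * Real.exp (-ε * s₁) with hκ
  have hwR : (0 : ℝ) < (w : ℝ) := by exact_mod_cast L.hw
  have hP₀m : Y₀ ≤ P₀.im := by simp [hP₀, hs₁]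
  have hP₀pos : 0 < ‖uFun h w d P₀‖ := norm_pos_iff.mpr (L.uFun_ne_zero hP₀m)
  refine ⟨‖uFun h w d P₀‖ * Real.exp (-(C₁ * w)) * Real.exp (-κ),
    ‖uFun h w d P₀‖ * Real.exp (C₁ * w) * Real.exp κ,
    mul_pos (mul_pos hP₀pos (Real.exp_pos _)) (Real.exp_pos _), fun z hz => ?_⟩
  -- reduce the real part
  have hzpos : 0 < z.im := by have := L.hY; linarith
  have hper : Function.Periodic
      (fun x : ℝ => uFun h w d ((x : ℂ) + Complex.I * (z.im : ℂ))) (w : ℝ) := by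
    intro x
    have h1 : (((x + (w : ℝ) : ℝ) : ℂ) + Complex.I * (z.im : ℂ))
        = ((x : ℂ) + Complex.I * (z.im : ℂ)) + (w : ℂ) := by
      push_cast; ring
    show uFun h w d (((x + (w : ℝ) : ℝ) : ℂ) + Complex.I * (z.im : ℂ)) = _
    rw [h1]
    apply L.uFun_periodic_upper
    simpa using hzpos
  obtain ⟨x', hx', hxeq⟩ := hper.exists_mem_Ico₀ hwR z.re
  have hz_eq : ((z.re : ℝ) : ℂ) + Complex.I * (z.im : ℂ) = z := by
    rw [mul_comm]; exact Complex.re_add_im z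
  simp only [hz_eq] at hxeq
  set P₁ : ℂ := (x' : ℂ) + Complex.I * (s₁ : ℂ) with hP₁
  have hP₁m : Y₀ ≤ P₁.im := by simp [hP₁, hs₁]
  -- vertical estimate
  have hv := vert_both (f := uFun h w d) (r := fun z => φ z / ψ z - cZero w d) (Y₀ := Y₀)
    L.hε L.hC (fun z hz => L.hasDerivAt_uFun hz.le) (fun z hz => L.hbd z hz.le) x'
    (s := s₁) (t := z.im) (by rw [hs₁]; linarith) hz
  -- horizontal estimates
  have hdist : ‖P₁ - P₀‖ ≤ (w : ℝ) := by
    have : P₁ - P₀ = ((x' : ℝ) : ℂ) := by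
      rw [hP₁, hP₀]; push_cast; ring
    rw [this, Complex.norm_real, Real.norm_eq_abs, abs_of_nonneg hx'.1]
    exact hx'.2.le
  have hdist' : ‖P₀ - P₁‖ ≤ (w : ℝ) := by rw [norm_sub_rev]; exact hdist
  have hexp : ∀ {D : ℝ}, D ≤ (w : ℝ) → Real.exp (C₁ * D) ≤ Real.exp (C₁ * w) := by
    intro D hD
    apply Real.exp_le_exp.mpr
    exact mul_le_mul_of_nonneg_left hD L.hC.le
  have hh1 := seg_fwd (f := uFun h w d) (r := fun z => φ z / ψ z - cZero w d)
    (convex_halfPlane Y₀) L.hC (fun z hz => L.hasDerivAt_uFun hz)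
    (fun z hz => L.resid_bound_one hz) hP₀m hP₁m
  have hh2 := seg_fwd (f := uFun h w d) (r := fun z => φ z / ψ z - cZero w d)
    (convex_halfPlane Y₀) L.hC (fun z hz => L.hasDerivAt_uFun hz)
    (fun z hz => L.resid_bound_one hz) hP₁m hP₀m
  have hh1' : ‖uFun h w d P₁‖ ≤ ‖uFun h w d P₀‖ * Real.exp (C₁ * w) :=
    hh1.trans (mul_le_mul_of_nonneg_left (hexp hdist) (norm_nonneg _))
  have hh2' : ‖uFun h w d P₀‖ ≤ ‖uFun h w d P₁‖ * Real.exp (C₁ * w) :=
    hh2.trans (mul_le_mul_of_nonneg_left (hexp hdist') (norm_nonneg _))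
  rw [hxeq]
  constructor
  · -- lower bound
    have h1 : ‖uFun h w d P₀‖ ≤ ‖uFun h w d ((x' : ℂ) + Complex.I * (z.im : ℂ))‖
        * Real.exp κ * Real.exp (C₁ * w) :=
      hh2'.trans (mul_le_mul_of_nonneg_right hv.2 (Real.exp_pos _).le)
    have h2 : ‖uFun h w d P₀‖ * Real.exp (-(C₁ * w)) * Real.exp (-κ)
        ≤ (‖uFun h w d ((x' : ℂ) + Complex.I * (z.im : ℂ))‖ * Real.exp κ * Real.exp (C₁ * w))
          * Real.exp (-(C₁ * w)) * Real.exp (-κ) :=
      mul_le_mul_of_nonneg_right (mul_le_mul_of_nonneg_right h1 (Real.exp_pos _).le)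
        (Real.exp_pos _).le
    have h3 : (‖uFun h w d ((x' : ℂ) + Complex.I * (z.im : ℂ))‖ * Real.exp κ * Real.exp (C₁ * w))
          * Real.exp (-(C₁ * w)) * Real.exp (-κ)
        = ‖uFun h w d ((x' : ℂ) + Complex.I * (z.im : ℂ))‖ := by
      have e1 : Real.exp κ * Real.exp (-κ) = 1 := by rw [← Real.exp_add]; simp
      have e2 : Real.exp (C₁ * w) * Real.exp (-(C₁ * w)) = 1 := by rw [← Real.exp_add]; simp
      calc _ = ‖uFun h w d ((x' : ℂ) + Complex.I * (z.im : ℂ))‖ * (Real.exp κ * Real.exp (-κ))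
            * (Real.exp (C₁ * w) * Real.exp (-(C₁ * w))) := by ring
        _ = _ := by rw [e1, e2, mul_one, mul_one]
    rw [h3] at h2
    exact h2
  · -- upper bound
    exact hv.1.trans (mul_le_mul_of_nonneg_right hh1' (Real.exp_pos _).le)

/-- moderate growth of `h` -/
theorem growth : ∃ B : ℝ, ∀ z : ℂ, Y₀ + 1 ≤ z.im →
    ‖h z‖ ≤ B * Real.exp (2 * Real.pi * (d.natAbs : ℕ) * z.im) := by
  obtain ⟨b, B, hb, hbB⟩ := L.uFun_bounds
  refine ⟨B, fun z hz => ?_⟩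
  have hzpos : 0 < z.im := by have := L.hY; linarith
  have hB0 : 0 ≤ B := (norm_nonneg _).trans (hbB z hz).2
  have h1 : h z = uFun h w d z * Complex.exp (cZero w d * z) := by
    unfold uFun
    rw [mul_assoc, ← Complex.exp_add]
    simp
  rw [h1, norm_mul, norm_exp_cZero]
  have hwR : (1 : ℝ) ≤ (w : ℝ) := by exact_mod_cast L.hw
  have h2 : -(2 * Real.pi * d / w) * z.im ≤ 2 * Real.pi * (d.natAbs : ℕ) * z.im := by
    have h3 : -(2 * Real.pi * d / w) ≤ 2 * Real.pi * (d.natAbs : ℕ) := by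
      have hnat : ((d.natAbs : ℕ) : ℝ) = |(d : ℝ)| := by
        rw [Nat.cast_natAbs, Int.cast_abs]
      rw [hnat]
      have hpi := Real.pi_pos
      have h1 : -(d : ℝ) / w ≤ |(d : ℝ)| := by
        rw [div_le_iff₀ (by linarith)]
        have h2 : -(d : ℝ) ≤ |(d : ℝ)| := neg_le_abs _
        have h3 : (0 : ℝ) ≤ |(d : ℝ)| := abs_nonneg _
        nlinarith
      have h4 : -(2 * Real.pi * d / w) = 2 * Real.pi * (-(d : ℝ) / w) := by ring
      rw [h4]
      exact mul_le_mul_of_nonneg_left h1 (by linarith)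
    exact mul_le_mul_of_nonneg_right h3 hzpos.le
  calc ‖uFun h w d z‖ * Real.exp (-(2 * Real.pi * d / w) * z.im)
      ≤ B * Real.exp (-(2 * Real.pi * d / w) * z.im) :=
        mul_le_mul_of_nonneg_right (hbB z hz).2 (Real.exp_pos _).le
    _ ≤ B * Real.exp (2 * Real.pi * (d.natAbs : ℕ) * z.im) :=
        mul_le_mul_of_nonneg_left (Real.exp_le_exp.mpr h2) hB0

end LogData

end Fermat.Agent.H35.MWDiv

end
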