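/-
P-MW / MW-A1 row LFINT-CUSP (helper35): the cusp order of `h = U exp (2πi d z / w)` where `U` is
periodic, holomorphic, bounded and bounded away from zero near `i∞`.  Mathlib only.
-/
import Fermat.Agent.H35.MWDiv.LogCore

set_option autoImplicit false

noncomputable section

namespace Fermat.Agent.H35.MWDiv

open Set Filter Topology Function

theorem uFun_periodic {h : ℂ → ℂ} {w : ℕ} (hw : 0 < w) (d : ℤ)
    (hper : Periodic h ((w : ℝ) : ℂ)) : Periodic (uFun h w d) ((w : ℝ) : ℂ) := by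
  intro z
  have hc : ((w : ℝ) : ℂ) = (w : ℂ) := Complex.ofReal_natCast w
  have h1 := hper z
  rw [hc] at h1 ⊢
  rw [uFun_shift hw, h1]
  rfl

theorem uFun_differentiableAt {h : ℂ → ℂ} (w : ℕ) (d : ℤ) {z : ℂ}
    (hz : DifferentiableAt ℂ h z) : DifferentiableAt ℂ (uFun h w d) z := by
  unfold uFun
  exact hz.mul (by fun_prop)

theorem exp_cZero_eq_qParam_zpow {w : ℕ} (hw : 0 < w) (d : ℤ) (z : ℂ) :
    Complex.exp (cZero w d * z) = Periodic.qParam (w : ℝ) z ^ d := by
  unfold Periodic.qParam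
  rw [← Complex.exp_int_mul]
  congr 1
  unfold cZero
  have hw' : (w : ℂ) ≠ 0 := by exact_mod_cast hw.ne'
  push_cast
  field_simp

/-- the cusp order of `h` is `d` if `U = h exp (-2πi d z / w)` is bounded and bounded away from
zero near `i∞` -/
theorem cusp_order_of_bounds {h : ℂ → ℂ} {w : ℕ} (hw : 0 < w) (d : ℤ)
    (hper : Periodic h ((w : ℝ) : ℂ))
    (hdiff : ∀ z : ℂ, 0 < z.im → DifferentiableAt ℂ h z)
    {Y b B : ℝ} (hb : 0 < b)
    (hbd : ∀ z : ℂ, Y ≤ z.im → b ≤ ‖uFun h w d z‖ ∧ ‖uFun h w d z‖ ≤ B) :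
    meromorphicOrderAt (Periodic.cuspFunction (w : ℝ) h) 0 = (d : WithTop ℤ) := by
  have hwR : (0 : ℝ) < (w : ℝ) := by exact_mod_cast hw
  have hUper := uFun_periodic hw d hper
  have hYev : ∀ᶠ z in comap Complex.im atTop, max Y 1 ≤ z.im :=
    tendsto_comap.eventually (eventually_ge_atTop (max Y 1))
  have hUhol : ∀ᶠ z in comap Complex.im atTop, DifferentiableAt ℂ (uFun h w d) z := by
    filter_upwards [hYev] with z hz
    exact uFun_differentiableAt w d
      (hdiff z (lt_of_lt_of_le one_pos ((le_max_right _ _).trans hz)))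
  have hUbd : BoundedAtFilter (comap Complex.im atTop) (uFun h w d) := by
    rw [BoundedAtFilter, Asymptotics.isBigO_iff]
    refine ⟨B, ?_⟩
    filter_upwards [hYev] with z hz
    simpa using (hbd z ((le_max_left _ _).trans hz)).2
  set G := Periodic.cuspFunction (w : ℝ) (uFun h w d) with hG
  have hG0d : DifferentiableAt ℂ G 0 :=
    Periodic.differentiableAt_cuspFunction_zero hwR hUper hUhol hUbd
  have hGne := Periodic.eventually_differentiableAt_cuspFunction_nhds_ne_zero hwR hUper hUhol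
  have hGan : AnalyticAt ℂ G 0 := by
    have hev : ∀ᶠ q in 𝓝 (0 : ℂ), DifferentiableAt ℂ G q := by
      rw [eventually_nhdsWithin_iff] at hGne
      filter_upwards [hGne] with q hq
      by_cases hq0 : q = 0
      · rw [hq0]; exact hG0d
      · exact hq hq0
    exact Complex.analyticAt_iff_eventually_differentiableAt.mpr hev
  -- lower bound near `0`
  have hGlow : ∀ᶠ q in 𝓝[≠] (0 : ℂ), b ≤ ‖G q‖ := by
    have h1 := (Periodic.invQParam_tendsto hwR).eventually hYev
    filter_upwards [h1, self_mem_nhdsWithin] with q hq hq0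
    have hq0' : q ≠ 0 := hq0
    rw [hG, Periodic.cuspFunction_eq_of_nonzero _ _ hq0']
    exact (hbd _ ((le_max_left _ _).trans hq)).1
  have hG0 : G 0 ≠ 0 := by
    have hcont : Tendsto (fun q => ‖G q‖) (𝓝[≠] (0 : ℂ)) (𝓝 ‖G 0‖) :=
      (hG0d.continuousAt.tendsto.mono_left nhdsWithin_le_nhds).norm
    have h1 : b ≤ ‖G 0‖ := ge_of_tendsto hcont hGlow
    intro h0
    rw [h0, norm_zero] at h1
    linarith
  -- the relation between the cusp functions
  have hrel : ∀ᶠ q in 𝓝[≠] (0 : ℂ),
      Periodic.cuspFunction (w : ℝ) h q = (q - 0) ^ d • G q := by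
    filter_upwards [self_mem_nhdsWithin] with q hq0
    have hq0' : q ≠ 0 := hq0
    rw [hG, Periodic.cuspFunction_eq_of_nonzero _ _ hq0',
      Periodic.cuspFunction_eq_of_nonzero _ _ hq0', sub_zero, smul_eq_mul]
    unfold uFun
    have h1 := exp_cZero_eq_qParam_zpow hw d (Periodic.invQParam (w : ℝ) q)
    rw [Periodic.qParam_right_inv hwR.ne' hq0'] at h1
    rw [← h1, mul_comm, mul_assoc, ← Complex.exp_add]
    simp
  have hmero : MeromorphicAt (Periodic.cuspFunction (w : ℝ) h) 0 := by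
    have h2 : MeromorphicAt (fun q : ℂ => (q - 0) ^ d • G q) 0 := by
      have hA : MeromorphicAt (fun q : ℂ => (q - 0) ^ d) 0 :=
        ((MeromorphicAt.id 0).sub (MeromorphicAt.const 0 0)).zpow _
      exact hA.smul hGan.meromorphicAt
    exact h2.congr (hrel.mono fun q hq => hq.symm)
  rw [meromorphicOrderAt_eq_int_iff hmero]
  exact ⟨G, hGan, hG0, hrel⟩

end Fermat.Agent.H35.MWDiv

end
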