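/-
P-MW / MW-A1 row LFINT-CUSP (helper35): `CuspIntegralStatement` (integration of a logarithmic
form at the cusp `i∞`).  Unconditional.
-/
import Fermat.Agent.H84.MWDiv.Interfaces2
import Fermat.Agent.H82.CuspMero
import Fermat.Agent.H35.MWDiv.CuspOrder

set_option autoImplicit false

noncomputable section

namespace Fermat.Agent.H35.MWDiv

open UpperHalfPlane Filter Topology Function
open scoped MatrixGroups Manifold

/-- `ofComplex (z + w) = T ^ w • z` for `z` in the upper half plane. -/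
theorem ofComplex_add_natCast (w : ℕ) (z : ℍ) :
    ofComplex ((z : ℂ) + (w : ℂ)) = ModularGroup.T ^ w • z := by
  have h := ModularGroup.coe_T_zpow_smul_eq (z := z) (n := (w : ℤ))
  rw [zpow_natCast] at h
  have h2 : ((ModularGroup.T ^ w • z : ℍ) : ℂ) = (z : ℂ) + (w : ℂ) := by
    rw [h]; simp
  rw [← h2]
  exact ofComplex_apply _

/-- the `ℂ`-level data attached to the hypotheses of `CuspIntegralStatement` -/
theorem logData_of_hyp (Φ Ψ H : ℍ → ℂ) (w : ℕ) (d : ℤ) (hw : 0 < w) (hH : MDiff H)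
    (hH0 : H ≠ 0)
    (hode : ∀ z : ℍ, Fermat.Agent.H84.MWDiv.dH H z * Ψ z = Φ z * H z)
    (hper : ∀ z : ℍ, Φ (ModularGroup.T ^ w • z) * Ψ z = Φ z * Ψ (ModularGroup.T ^ w • z))
    {C Y ε : ℝ} (hε : 0 < ε)
    (hbd : ∀ z : ℍ, Y ≤ z.im → Ψ z ≠ 0 ∧
      ‖Φ z / Ψ z - 2 * (Real.pi : ℂ) * Complex.I * (d : ℂ) / (w : ℂ)‖ ≤
        C * Real.exp (-ε * z.im)) :
    LogData (H ∘ ofComplex) (Φ ∘ ofComplex) (Ψ ∘ ofComplex) w d (max Y 1) ε (|C| + 1) where
  hw := hw
  hY := le_max_right _ _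
  hε := hε
  hC := by positivity
  hdiff := fun z hz => mdifferentiableAt_iff.mp (hH ⟨z, hz⟩)
  hode := by
    intro z hz
    have h1 := hode ⟨z, hz⟩
    simp only [Function.comp_apply, ofComplex_apply_of_im_pos hz]
    exact h1
  hper := by
    intro z hz
    have h1 := hper ⟨z, hz⟩
    have h2 := ofComplex_add_natCast w ⟨z, hz⟩
    simp only [Function.comp_apply, ofComplex_apply_of_im_pos hz]
    have h3 : ofComplex (z + (w : ℂ)) = ModularGroup.T ^ w • (⟨z, hz⟩ : ℍ) := h2
    rw [h3]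
    exact h1
  hψ := by
    intro z hz
    have hzpos : 0 < z.im := lt_of_lt_of_le one_pos ((le_max_right _ _).trans hz)
    have h1 := (hbd ⟨z, hzpos⟩ ((le_max_left _ _).trans hz)).1
    simp only [Function.comp_apply, ofComplex_apply_of_im_pos hzpos]
    exact h1
  hbd := by
    intro z hz
    have hzpos : 0 < z.im := lt_of_lt_of_le one_pos ((le_max_right _ _).trans hz)
    have h1 := (hbd ⟨z, hzpos⟩ ((le_max_left _ _).trans hz)).2
    simp only [Function.comp_apply, ofComplex_apply_of_im_pos hzpos]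
    refine (h1.trans ?_)
    have him : (⟨z, hzpos⟩ : ℍ).im = z.im := rfl
    rw [him]
    apply mul_le_mul_of_nonneg_right _ (Real.exp_pos _).le
    have := le_abs_self C
    linarith
  hne := by
    obtain ⟨z, hz⟩ := Function.ne_iff.mp hH0
    refine ⟨(z : ℂ), z.im_pos, ?_⟩
    simpa using hz

/-- **[A1-LFINT-CUSP]** integration of a logarithmic form at the cusp `i∞`. -/
theorem cuspIntegral : Fermat.Agent.H84.MWDiv.CuspIntegralStatement := by
  intro Φ Ψ H w d hw _hΦ _hΨ hH hH0 hode hper hbd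
  obtain ⟨C, Y, ε, hε, hbd⟩ := hbd
  have L := logData_of_hyp Φ Ψ H w d hw hH hH0 hode hper hε hbd
  have hperH : ∀ z : ℍ, H (ModularGroup.T ^ w • z) = H z := by
    intro z
    have h1 := L.periodic_upper (z : ℂ) z.im_pos
    simp only [Function.comp_apply, ofComplex_add_natCast, ofComplex_apply] at h1
    exact h1
  refine ⟨hperH, ?_, ?_⟩
  · obtain ⟨B, hB⟩ := L.growth
    refine ⟨d.natAbs, B, max Y 1 + 1, fun z hz => ?_⟩
    have h1 := hB (z : ℂ) hz
    simp only [Function.comp_apply, ofComplex_apply] at h1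
    exact h1
  · obtain ⟨b, B, hb, hbB⟩ := L.uFun_bounds
    unfold Fermat.Agent.H23.EsA.cuspOrd
    exact cusp_order_of_bounds hw d (Fermat.Agent.H82.cm_periodic_comp_ofComplex w H hperH)
      L.hdiff hb hbB

end Fermat.Agent.H35.MWDiv

end
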